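import Mathlib
import Fermat.Agent.H28.ES.EigenRep

/-!
# P-ES1 / ES1-SPACE, abstract part (helper28): the eigenspace representation, three operators

Variant of `Fermat.Agent.H28.exists_eigenRep` in which the constant term of the quadratic
relation is a multiple of one of the operators:
`ρ₀(g)² - h_i ρ₀(g) + n h_j = 0` on `T` becomes `ρ(g)² - c_i ρ(g) + n c_j = 0` on the common
eigenspace `W`.
-/

set_option autoImplicit false

namespace Fermat.Agent.H28

open scoped TensorProduct

section

variable {G : Type} [Group G] {R : Type} [CommRing R] {T : Type} [AddCommGroup T] [Module R T]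
  {k : Type} [Field k] [Algebra R k]
  {ι : Type} {ρ₀ : G →* Module.End R T} {h : ι → Module.End R T} {c : ι → k}

/-- **ES1-SPACE, abstract form.** -/
theorem exists_eigenRep3 [Finite T] (hcomm : ∀ i g, h i * ρ₀ g = ρ₀ g * h i)
    (w : k ⊗[R] T) (hw : w ≠ 0) (hwe : ∀ i, (h i).baseChange k w = c i • w) :
    ∃ (W : Type) (_ : AddCommGroup W) (_ : Module k W) (ρ : G →* Module.End k W),
      Module.Finite k W ∧ Nontrivial W ∧
      (∀ g, ρ₀ g = 1 → ρ g = 1) ∧
      (∀ (g : G) (i j : ι) (n : R), ρ₀ g * ρ₀ g - h i * ρ₀ g + n • h j = 0 →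
        ρ g * ρ g - c i • ρ g + (algebraMap R k n * c j) • (1 : Module.End k W) = 0) := by
  have : Module.Finite R T := Module.Finite.of_finite
  have : Module.Finite k (k ⊗[R] T) := inferInstance
  refine ⟨eigenSub k h c, inferInstance, inferInstance, eigenRep k ρ₀ h c hcomm,
    inferInstance, ?_, ?_, ?_⟩
  · exact ⟨⟨⟨w, mem_eigenSub_iff.mpr hwe⟩, 0, fun h0 => hw (congrArg Subtype.val h0)⟩⟩
  · intro g hg
    refine LinearMap.ext fun v => Subtype.ext ?_
    rw [coe_eigenRep_apply, hg, Module.End.one_eq_id, LinearMap.baseChange_id]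
    rfl
  · intro g i j n hrel
    refine LinearMap.ext fun v => Subtype.ext ?_
    have hv' : (ρ₀ g).baseChange k (v : k ⊗[R] T) ∈ eigenSub k h c :=
      baseChange_mem_eigenSub hcomm g v.2
    have hb := congrArg (fun f : Module.End R T => f.baseChange k (v : k ⊗[R] T)) hrel
    simp only [Module.End.mul_eq_comp, LinearMap.baseChange_add, LinearMap.baseChange_sub,
      LinearMap.baseChange_comp, LinearMap.baseChange_smul, LinearMap.baseChange_zero,
      LinearMap.add_apply, LinearMap.sub_apply,
      LinearMap.comp_apply, LinearMap.smul_apply, LinearMap.zero_apply]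
      at hb
    rw [mem_eigenSub_iff.mp hv' i, mem_eigenSub_iff.mp v.2 j] at hb
    simp only [LinearMap.add_apply, LinearMap.sub_apply, LinearMap.smul_apply,
      Module.End.mul_apply, Module.End.one_apply, LinearMap.zero_apply, Submodule.coe_add,
      Submodule.coe_sub, Submodule.coe_smul, coe_eigenRep_apply, Submodule.coe_zero]
    rw [← hb, mul_smul, algebraMap_smul]

end

end Fermat.Agent.H28
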