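import Mathlib
import Fermat.Agent.H28.ES1.EigenRep3
import Fermat.Agent.H29.ES1.Interfaces

/-!
# P-ES1 / ES1-SPACE (row 583): the torsion package of `J₁(M)` gives the Eichler–Shimura space
(helper28)

`eichlerShimuraSpace1_of_parts` :
`J1TorsFiniteStatement`, `J1SmoothStatement`, `J1GalHeckeStatement`, `J1UnramifiedStatement`,
`J1EichlerShimuraStatement`, `J1EigenStatement` imply
`Fermat.Agent.H29.ES1.EichlerShimuraSpace1Statement`.

The space `W` is the common eigenspace of the `1 ⊗ T_p` (`p ∤ M ℓ`) and the `1 ⊗ ⟨d⟩` in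
`k ⊗_ℤ J₁(M)(ℚ̄)[ℓ]`.
-/

set_option autoImplicit false

namespace Fermat.Agent.H28

open ModularCurve AlgebraicCurve Fermat.Agent.H29.ES1
open scoped TensorProduct

/-! ## Reductions are unique -/

theorem red_unique {k : Type} [Field k] (φ : Fermat.Agent.H20.DS.Zbar →+* k) {x : ℂ} {y y' : k}
    (h : Fermat.Agent.H20.DS.Red φ x y) (h' : Fermat.Agent.H20.DS.Red φ x y') : y = y' := by
  obtain ⟨z, hz, rfl⟩ := h
  obtain ⟨z', hz', rfl⟩ := h'
  have : z = z' := Subtype.ext (hz.trans hz'.symm)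
  rw [this]

theorem red_natCast_mul {k : Type} [Field k] (φ : Fermat.Agent.H20.DS.Zbar →+* k) {x : ℂ}
    {e d : k} (p : ℕ) (h : Fermat.Agent.H20.DS.Red φ x e)
    (h' : Fermat.Agent.H20.DS.Red φ ((p : ℂ) * x) d) : (p : k) * e = d := by
  obtain ⟨z, hz, rfl⟩ := h
  refine red_unique φ ⟨(p : Fermat.Agent.H20.DS.Zbar) * z, ?_, ?_⟩ h'
  · rw [← hz]
    push_cast
    rfl
  · rw [map_mul, map_natCast]

/-! ## Abstract algebra -/

theorem comm_of_eq_mul {E : Type*} [Monoid E] {a u d s : E} (ha : a = u * d)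
    (hd : d * s = s * d) (hu : u * s = s * u) : a * s = s * a := by
  rw [ha, mul_assoc, hd, ← mul_assoc, hu, mul_assoc]

theorem map_comm_of_comm {E F : Type*} [Monoid E] [Monoid F] (f : E →* F) {a s : E}
    (h : a * s = s * a) : f a * f s = f s * f a := by
  rw [← map_mul, h, map_mul]

/-- Restriction of scalars of endomorphisms, as a monoid homomorphism. -/
def endRestrictInt (n : ℕ) (T : Type) [AddCommGroup T] [Module (ZMod n) T] :
    Module.End (ZMod n) T →* Module.End ℤ T where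
  toFun f := f.restrictScalars ℤ
  map_one' := rfl
  map_mul' _ _ := rfl

@[simp] theorem endRestrictInt_apply (n : ℕ) (T : Type) [AddCommGroup T] [Module (ZMod n) T]
    (f : Module.End (ZMod n) T) (x : T) : endRestrictInt n T f x = f x := rfl

theorem endRestrictInt_rel {n : ℕ} {T : Type} [AddCommGroup T] [Module (ZMod n) T]
    (s t d : Module.End (ZMod n) T) (p : ℕ) (h : s * s - t * s + (p : ZMod n) • d = 0) :
    endRestrictInt n T s * endRestrictInt n T s - endRestrictInt n T t * endRestrictInt n T s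
      + (p : ℤ) • endRestrictInt n T d = 0 := by
  refine LinearMap.ext fun x => ?_
  have hx := congrArg (fun f : Module.End (ZMod n) T => f x) h
  simp only [LinearMap.add_apply, LinearMap.sub_apply, LinearMap.smul_apply,
    Module.End.mul_apply, LinearMap.zero_apply, endRestrictInt_apply] at hx ⊢
  rw [Nat.cast_smul_eq_nsmul] at hx
  rw [Nat.cast_smul_eq_nsmul]
  exact hx

/-! ## Commutation with the Galois action -/

section

variable (M : ℕ) [NeZero M]

theorem TTors_eq_of_prime (n : ℕ) {p : ℕ} (hp : p.Prime) (hpM : ¬ p ∣ M) :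
    haveI : NeZero p := ⟨hp.ne_zero⟩
    TTors M n p = heckeTors1 M n p
      * diamTors M n (ZMod.unitOfCoprime p ((Nat.Prime.coprime_iff_not_dvd hp).mpr hpM)) := by
  have h : Nat.Coprime p M ∧ p ≠ 0 := ⟨(Nat.Prime.coprime_iff_not_dvd hp).mpr hpM, hp.ne_zero⟩
  rw [TTors, dif_pos h]

theorem diamNat_eq_of_prime (n : ℕ) {p : ℕ} (hp : p.Prime) (hpM : ¬ p ∣ M) :
    diamNat M n p
      = diamTors M n (ZMod.unitOfCoprime p ((Nat.Prime.coprime_iff_not_dvd hp).mpr hpM)) := by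
  have h : Nat.Coprime p M := (Nat.Prime.coprime_iff_not_dvd hp).mpr hpM
  rw [diamNat, dif_pos h]

theorem diamTors_comm_gal (hgal : J1GalHeckeStatement) (hM : 5 ≤ M) {n : ℕ} (hn : 0 < n)
    (σ : GalQ) (d : (ZMod M)ˣ) :
    diamTors M n d * J1.torsionGaloisRep M n σ = J1.torsionGaloisRep M n σ * diamTors M n d :=
  (hgal M hM n hn σ).2.1 d⁻¹

theorem TTors_comm_gal (hgal : J1GalHeckeStatement) (hM : 5 ≤ M) {n : ℕ} (hn : 0 < n)
    (σ : GalQ) {p : ℕ} (hp : p.Prime) (hpM : ¬ p ∣ M) :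
    TTors M n p * J1.torsionGaloisRep M n σ = J1.torsionGaloisRep M n σ * TTors M n p :=
  haveI : NeZero p := ⟨hp.ne_zero⟩
  comm_of_eq_mul (TTors_eq_of_prime M n hp hpM) (diamTors_comm_gal M hgal hM hn σ _)
    ((hgal M hM n hn σ).1 p hp hpM)

/-! ## Finite level -/

theorem j1_torsion_finiteLevel (hsm : J1SmoothStatement) (hM : 5 ≤ M) {n : ℕ} (hn : 0 < n)
    [Finite (J1Tors M n)] :
    ∃ L : IntermediateField ℚ (AlgebraicClosure ℚ), FiniteDimensional ℚ L ∧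
      ∀ σ : GalQ, (∀ y ∈ L, σ y = y) → J1.torsionGaloisRep M n σ = 1 := by
  have hex : ∀ x : J1Tors M n, ∃ L : IntermediateField ℚ (AlgebraicClosure ℚ),
      FiniteDimensional ℚ L ∧ ∀ σ : GalQ, (∀ y ∈ L, σ y = y) → σ • (x : J1 M) = x := by
    intro x
    refine hsm M hM (x : J1 M) ⟨n, hn, ?_⟩
    have := Pic0.mem_torsion.mp x.2
    rwa [natCast_zsmul] at this
  choose L hL hfix using hex
  have : ∀ x, FiniteDimensional ℚ (L x) := hL
  refine ⟨⨆ x, L x, inferInstance, fun σ hσ => LinearMap.ext fun x => Subtype.ext ?_⟩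
  rw [J1.coe_torsionGaloisRep_apply, Module.End.one_apply]
  exact hfix x σ fun y hy => hσ y ((le_iSup L x) hy)

end

/-! ## The Eichler–Shimura space -/

/-- **ES1-SPACE (row 583).** -/
theorem eichlerShimuraSpace1_of_parts (hfin : J1TorsFiniteStatement) (hsm : J1SmoothStatement)
    (hgal : J1GalHeckeStatement) (hU : J1UnramifiedStatement) (hES : J1EichlerShimuraStatement)
    (heig : J1EigenStatement) : EichlerShimuraSpace1Statement := by
  intro M _ hM ψ h ℓ hℓ k _ _ φ abar dbar hmod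
  have hfinT : Finite (J1Tors M ℓ) := hfin M hM ℓ hℓ.pos
  obtain ⟨w, hw, hwT, hwD⟩ := heig M hM ψ h ℓ hℓ k φ abar dbar hmod
  choose e he hwe using hwD
  have hnotM : ∀ p : {p : ℕ // p.Prime ∧ ¬ p ∣ M * ℓ}, ¬ (p : ℕ) ∣ M := fun p hdiv =>
    p.2.2 (Dvd.dvd.mul_right hdiv ℓ)
  -- the representation on the torsion, over `ℤ`
  let ρ₀ : GalQ →* Module.End ℤ (J1Tors M ℓ) :=
    (endRestrictInt ℓ (J1Tors M ℓ)).comp (J1.torsionGaloisRep M ℓ)
  let hop : ({p : ℕ // p.Prime ∧ ¬ p ∣ M * ℓ} ⊕ (ZMod M)ˣ) → Module.End ℤ (J1Tors M ℓ) :=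
    Sum.elim (fun p => endRestrictInt ℓ (J1Tors M ℓ) (TTors M ℓ p.1))
      (fun d => endRestrictInt ℓ (J1Tors M ℓ) (diamTors M ℓ d))
  let c : ({p : ℕ // p.Prime ∧ ¬ p ∣ M * ℓ} ⊕ (ZMod M)ˣ) → k :=
    Sum.elim (fun p => abar p.1) e
  have hcomm : ∀ i g, hop i * ρ₀ g = ρ₀ g * hop i := by
    rintro (p | d) σ
    · exact map_comm_of_comm (endRestrictInt ℓ (J1Tors M ℓ))
        (TTors_comm_gal M hgal hM hℓ.pos σ p.2.1 (hnotM p))
    · exact map_comm_of_comm (endRestrictInt ℓ (J1Tors M ℓ))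
        (diamTors_comm_gal M hgal hM hℓ.pos σ d)
  have hwe' : ∀ i, (hop i).baseChange k w = c i • w := by
    rintro (p | d)
    · exact hwT p.1 p.2.1 p.2.2
    · exact hwe d
  obtain ⟨W, _, _, ρ, hWfin, hWnt, hone, hquad⟩ :=
    exists_eigenRep3 (k := k) (ρ₀ := ρ₀) (h := hop) (c := c) hcomm w hw hwe'
  have hone' : ∀ σ : GalQ, J1.torsionGaloisRep M ℓ σ = 1 → ρ σ = 1 := by
    intro σ hσ
    refine hone σ ?_
    show endRestrictInt ℓ (J1Tors M ℓ) (J1.torsionGaloisRep M ℓ σ) = 1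
    rw [hσ, map_one]
  refine ⟨W, inferInstance, inferInstance, ρ, hWfin, hWnt, ?_, ?_, ?_⟩
  · obtain ⟨L, hLfin, hLfix⟩ := j1_torsion_finiteLevel M hsm hM hℓ.pos
    exact ⟨L, hLfin, fun σ hσ => hone' σ (hLfix σ hσ)⟩
  · intro p hp hpMℓ A hA σ hσ
    exact hone' σ (hU M hM ℓ hℓ.pos p hp hpMℓ A hA σ hσ)
  · intro p hp hpMℓ A hA σ hσ
    have hpM : ¬ p ∣ M := fun hdiv => hpMℓ (Dvd.dvd.mul_right hdiv ℓ)
    have hrel := hES M hM ℓ hℓ.pos p hp hpMℓ A hA σ hσ
    have hrel' : ρ₀ σ * ρ₀ σ - hop (Sum.inl ⟨p, hp, hpMℓ⟩) * ρ₀ σ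
        + (p : ℤ) • hop (Sum.inr
          (ZMod.unitOfCoprime p ((Nat.Prime.coprime_iff_not_dvd hp).mpr hpM))) = 0 :=
      endRestrictInt_rel _ _ _ p ((diamNat_eq_of_prime M ℓ hp hpM) ▸ hrel)
    have hfinal := hquad σ (Sum.inl ⟨p, hp, hpMℓ⟩)
      (Sum.inr (ZMod.unitOfCoprime p ((Nat.Prime.coprime_iff_not_dvd hp).mpr hpM))) (p : ℤ) hrel'
    have hc : algebraMap ℤ k (p : ℤ)
        * c (Sum.inr (ZMod.unitOfCoprime p ((Nat.Prime.coprime_iff_not_dvd hp).mpr hpM)))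
        = dbar p := by
      have h1 := he (ZMod.unitOfCoprime p ((Nat.Prime.coprime_iff_not_dvd hp).mpr hpM))
      rw [ZMod.coe_unitOfCoprime] at h1
      have h2 := red_natCast_mul φ p h1 (hmod.red_det p hp hpM)
      rw [← h2]
      simp [c]
    rw [hc] at hfinal
    exact hfinal

end Fermat.Agent.H28
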