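import Mathlib
import Fermat.Agent.H28.ES.S29Space
import Fermat.Agent.H28.ES1.Space1
import Fermat.Agent.H29.ES1.GenInterfaces

/-!
# P-ES1 / ES1-FINAL5 (row 584): the mod `ℓ` representations for `Γ₁(M)`, `M ≥ 5` (helper28)

`gamma1Residual5_of_space` :
`EichlerShimuraSpace1Statement` and `CycloCharGenStatement` imply
`Fermat.Agent.H29.ES1.Gamma1ResidualStatement5`.

Port of `Fermat.Agent.H28.s29_of_frobPow`: pass to the algebraically closed residue field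
`k₀ = ℤ̄ ⧸ ker φ`, take the Eichler–Shimura space `W` over `k₀`, the character
`d = (ψ̄ ∘ ε_M) · ε_ℓ` (so that `d(Frob_p) = φ(p ψ(p))`), and apply the landed algebra
`Fermat.Agent.H64.exists_residualGaloisRep_of_frobenius_relations` with the unconditional
Frobenius density `Fermat.Agent.H28.frobPowDense`.
-/

set_option autoImplicit false

namespace Fermat.Agent.H28

open Polynomial Fermat.Agent.H29.ES1

/-! ## The reduction of a Dirichlet character -/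

theorem dirichlet_isIntegral {M : ℕ} [NeZero M] (ψ : DirichletCharacter ℂ M) (u : (ZMod M)ˣ) :
    IsIntegral ℤ (ψ (u : ZMod M)) := by
  have hpos : 0 < orderOf u := orderOf_pos u
  have hpow : ψ (u : ZMod M) ^ orderOf u = 1 := by
    rw [← map_pow, ← Units.val_pow_eq_pow_val, pow_orderOf_eq_one, Units.val_one, map_one]
  exact IsIntegral.of_pow hpos (hpow ▸ isIntegral_one)

/-- The values of a Dirichlet character on units, as algebraic integers. -/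
noncomputable def dirichletZbar {M : ℕ} [NeZero M] (ψ : DirichletCharacter ℂ M) :
    (ZMod M)ˣ →* Fermat.Agent.H20.DS.Zbar where
  toFun u := ⟨ψ (u : ZMod M), dirichlet_isIntegral ψ u⟩
  map_one' := Subtype.ext (by simp)
  map_mul' u v := Subtype.ext (by simp)

@[simp] theorem coe_dirichletZbar {M : ℕ} [NeZero M] (ψ : DirichletCharacter ℂ M)
    (u : (ZMod M)ˣ) : ((dirichletZbar ψ u : Fermat.Agent.H20.DS.Zbar) : ℂ) = ψ (u : ZMod M) :=
  rfl

/-- The reduction of a Dirichlet character modulo `φ`. -/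
noncomputable def dirichletRed {M : ℕ} [NeZero M] (ψ : DirichletCharacter ℂ M) {k : Type}
    [Field k] (φ : Fermat.Agent.H20.DS.Zbar →+* k) : (ZMod M)ˣ →* kˣ :=
  ((φ : Fermat.Agent.H20.DS.Zbar →* k).comp (dirichletZbar ψ)).toHomUnits

theorem coe_dirichletRed {M : ℕ} [NeZero M] (ψ : DirichletCharacter ℂ M) {k : Type}
    [Field k] (φ : Fermat.Agent.H20.DS.Zbar →+* k) (u : (ZMod M)ˣ) :
    ((dirichletRed ψ φ u : kˣ) : k) = φ (dirichletZbar ψ u) := rfl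

theorem red_dirichletRed {M : ℕ} [NeZero M] (ψ : DirichletCharacter ℂ M) {k : Type}
    [Field k] (φ : Fermat.Agent.H20.DS.Zbar →+* k) (u : (ZMod M)ˣ) :
    Fermat.Agent.H20.DS.Red φ (ψ (u : ZMod M)) ((dirichletRed ψ φ u : kˣ) : k) :=
  ⟨dirichletZbar ψ u, rfl, rfl⟩

/-! ## Descent of the eigen-system to the residue field of `ℤ̄` -/

section Descent

variable {k₀ k : Type} [Field k₀] [Field k] (φ' : Fermat.Agent.H20.DS.Zbar →+* k₀)
  (ι : k₀ →+* k)

/-- A reduction of `x` modulo `φ'` (`0` if `x` is not an algebraic integer). -/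
noncomputable def redVal (x : ℂ) : k₀ :=
  open Classical in
  if h : ∃ z : Fermat.Agent.H20.DS.Zbar, (z : ℂ) = x then φ' h.choose else 0

theorem red_redVal {x : ℂ} {y : k} (h : Fermat.Agent.H20.DS.Red (ι.comp φ') x y) :
    Fermat.Agent.H20.DS.Red φ' x (redVal φ' x) ∧ ι (redVal φ' x) = y := by
  obtain ⟨z, hz, hy⟩ := h
  have hex : ∃ z : Fermat.Agent.H20.DS.Zbar, (z : ℂ) = x := ⟨z, hz⟩
  have hval : redVal φ' x = φ' z := by
    rw [redVal, dif_pos hex]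
    congr 1
    exact Subtype.ext (hex.choose_spec.trans hz.symm)
  exact ⟨⟨z, hz, hval.symm⟩, by rw [hval, ← hy]; rfl⟩

theorem isModEigen_descend {M : ℕ} {ψ : DirichletCharacter ℂ M}
    {h : CuspForm (CongruenceSubgroup.Gamma1 M) 2} {abar dbar : ℕ → k}
    (hmod : Fermat.Agent.H20.DS.IsModEigen ψ h (ι.comp φ') abar dbar) :
    Fermat.Agent.H20.DS.IsModEigen ψ h φ'
      (fun n => redVal φ' (ModularFormClass.qCoeff h n))
      (fun p => redVal φ' ((p : ℂ) * ψ (p : ZMod M))) := by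
  have ha : ∀ n, ι (redVal φ' (ModularFormClass.qCoeff h n)) = abar n := fun n =>
    (red_redVal φ' ι (hmod.red_coeff n)).2
  refine ⟨hmod.nebentypus, fun n => (red_redVal φ' ι (hmod.red_coeff n)).1,
    fun p hp hpM => (red_redVal φ' ι (hmod.red_det p hp hpM)).1, ?_, ?_⟩
  · apply ι.injective
    rw [ha, hmod.one, map_one]
  · intro p hp hpM n
    apply ι.injective
    have hd : ι (redVal φ' ((p : ℂ) * ψ (p : ZMod M))) = dbar p :=
      (red_redVal φ' ι (hmod.red_det p hp hpM)).2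
    rw [map_add, map_mul, map_mul, ha, ha, ha, hd, ← hmod.hecke p hp hpM n]
    split_ifs
    · rw [ha]
    · rw [map_zero]

end Descent

/-! ## The assembly -/

/-- **ES1-FINAL5 (row 584), with an explicit Frobenius density hypothesis.** -/
theorem gamma1Residual5_of_frobPow (hdense : Fermat.Agent.H64.FrobPowDense)
    (hS : EichlerShimuraSpace1Statement) (hC : CycloCharGenStatement) :
    Gamma1ResidualStatement5 := by
  classical
  intro M _ hM ψ h ℓ hℓ k _ _ φ abar dbar hmod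
  have hM0 : M ≠ 0 := NeZero.ne M
  have : NeZero ℓ := ⟨hℓ.ne_zero⟩
  have : Fact ℓ.Prime := ⟨hℓ⟩
  -- the residue field of `ℤ̄`
  have hmax : (RingHom.ker φ).IsMaximal := ker_isMaximal_of_charP ℓ hℓ k φ
  let _ : Field (integralClosure ℤ ℂ ⧸ RingHom.ker φ) := Ideal.Quotient.field (RingHom.ker φ)
  have : IsAlgClosed (integralClosure ℤ ℂ ⧸ RingHom.ker φ) := isAlgClosed_quot (RingHom.ker φ) hmax
  let φ' : integralClosure ℤ ℂ →+* (integralClosure ℤ ℂ ⧸ RingHom.ker φ) :=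
    Ideal.Quotient.mk (RingHom.ker φ)
  let ι : (integralClosure ℤ ℂ ⧸ RingHom.ker φ) →+* k :=
    Ideal.Quotient.lift (RingHom.ker φ) φ (fun _ h => h)
  have hι' : ∀ x, ι (φ' x) = φ x := fun x => Ideal.Quotient.lift_mk _ _ _
  have hι : ι.comp φ' = φ := RingHom.ext hι'
  have : CharP (integralClosure ℤ ℂ ⧸ RingHom.ker φ) ℓ := by
    refine (CharP.charP_iff_prime_eq_zero hℓ).mpr ?_
    have h1 : ι ((ℓ : integralClosure ℤ ℂ ⧸ RingHom.ker φ)) = 0 := by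
      rw [map_natCast]
      exact CharP.cast_eq_zero k ℓ
    exact (map_eq_zero ι).mp h1
  have hmod' : Fermat.Agent.H20.DS.IsModEigen ψ h (ι.comp φ') abar dbar := by
    rw [hι]
    exact hmod
  have hmod₀ := isModEigen_descend φ' ι hmod'
  have ha : ∀ n, ι (redVal φ' (ModularFormClass.qCoeff h n)) = abar n := fun n =>
    (red_redVal φ' ι (hmod'.red_coeff n)).2
  have hd : ∀ p : ℕ, p.Prime → ¬ p ∣ M →
      ι (redVal φ' ((p : ℂ) * ψ (p : ZMod M))) = dbar p := fun p hp hpM =>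
    (red_redVal φ' ι (hmod'.red_det p hp hpM)).2
  obtain ⟨W, iW1, iW2, ρ, hWfin, hWnt, hfin, hunr, hfrob⟩ :=
    hS M hM ψ h ℓ hℓ (integralClosure ℤ ℂ ⧸ RingHom.ker φ) φ' _ _ hmod₀
  -- the cyclotomic characters
  obtain ⟨c, -, hcyc⟩ := hC
  obtain ⟨εM, hεMfin, -, hεM⟩ := hcyc M
  obtain ⟨εℓ, hεℓfin, -, hεℓ⟩ := hcyc ℓ
  -- the determinant character
  let ι₀ : ZMod ℓ →+* (integralClosure ℤ ℂ ⧸ RingHom.ker φ) := ZMod.castHom (dvd_refl ℓ) _
  let d : GalQ →* (integralClosure ℤ ℂ ⧸ RingHom.ker φ)ˣ :=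
    ((dirichletRed ψ φ').comp εM)
      * ((Units.map (ι₀ : ZMod ℓ →* (integralClosure ℤ ℂ ⧸ RingHom.ker φ))).comp εℓ)
  have hdval : ∀ σ : GalQ, ((d σ : (integralClosure ℤ ℂ ⧸ RingHom.ker φ)ˣ) :
      integralClosure ℤ ℂ ⧸ RingHom.ker φ) =
        ((dirichletRed ψ φ' (εM σ) : (integralClosure ℤ ℂ ⧸ RingHom.ker φ)ˣ) :
          integralClosure ℤ ℂ ⧸ RingHom.ker φ) * ι₀ ((εℓ σ : (ZMod ℓ)ˣ) : ZMod ℓ) :=
    fun σ => rfl
  have hdone : ∀ σ : GalQ, εM σ = 1 → εℓ σ = 1 → d σ = 1 := by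
    intro σ h1 h2
    show dirichletRed ψ φ' (εM σ)
      * Units.map (ι₀ : ZMod ℓ →* (integralClosure ℤ ℂ ⧸ RingHom.ker φ)) (εℓ σ) = 1
    rw [h1, h2, map_one, map_one, one_mul]
  have hdfin : GaloisFactorsThroughFiniteLevel d := by
    obtain ⟨L₁, hL₁, h₁⟩ := hεMfin
    obtain ⟨L₂, hL₂, h₂⟩ := hεℓfin
    refine ⟨L₁ ⊔ L₂, IntermediateField.finiteDimensional_sup L₁ L₂, fun σ hσ => ?_⟩
    exact hdone σ (h₁ σ fun a ha => hσ a ((le_sup_left : L₁ ≤ L₁ ⊔ L₂) ha))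
      (h₂ σ fun a ha => hσ a ((le_sup_right : L₂ ≤ L₁ ⊔ L₂) ha))
  have hsplit : ∀ p : ℕ, ¬ p ∣ M * ℓ → ¬ p ∣ M ∧ ¬ p ∣ ℓ := fun p hp =>
    ⟨fun hdiv => hp (Dvd.dvd.mul_right hdiv ℓ), fun hdiv => hp (Dvd.dvd.mul_left hdiv M)⟩
  have hSet : ∀ p : ℕ, p.Prime → (p ∉ (M * ℓ).primeFactors ↔ ¬ p ∣ M * ℓ) := by
    intro p hp
    rw [Nat.mem_primeFactors]
    constructor
    · intro h1 h2
      exact h1 ⟨hp, h2, mul_ne_zero hM0 hℓ.ne_zero⟩
    · intro h1 h2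
      exact h1 h2.2.1
  have hdfrob : ∀ p : ℕ, p.Prime → ¬ p ∣ M * ℓ →
      ∀ A : ValuationSubring (AlgebraicClosure ℚ), A.LiesOverPrime p →
        ∀ σ : GalQ, A.IsFrobeniusAt σ p →
          ((d σ : (integralClosure ℤ ℂ ⧸ RingHom.ker φ)ˣ) :
            integralClosure ℤ ℂ ⧸ RingHom.ker φ) = redVal φ' ((p : ℂ) * ψ (p : ZMod M)) := by
    intro p hp hpMℓ A hA σ hσ
    obtain ⟨hpM, hpℓ⟩ := hsplit p hpMℓ
    have h1 : ((εM σ : (ZMod M)ˣ) : ZMod M) = (p : ZMod M) := (hεM p hp hpM A hA).2 σ hσ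
    have h2 : ((εℓ σ : (ZMod ℓ)ˣ) : ZMod ℓ) = (p : ZMod ℓ) := (hεℓ p hp hpℓ A hA).2 σ hσ
    have h3 := red_dirichletRed ψ φ' (εM σ)
    rw [h1] at h3
    rw [hdval, h2, map_natCast, mul_comm]
    exact red_natCast_mul φ' p h3 (hmod₀.red_det p hp hpM)
  have hFrob : ∀ p : ℕ, p.Prime → p ∉ (M * ℓ).primeFactors →
      ∀ A : ValuationSubring (AlgebraicClosure ℚ), A.LiesOverPrime p →
        ∀ σ : GalQ, A.IsFrobeniusAt σ p →
          ρ σ * ρ σ - redVal φ' (ModularFormClass.qCoeff h p) • ρ σ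
            + ((d σ : (integralClosure ℤ ℂ ⧸ RingHom.ker φ)ˣ) :
              integralClosure ℤ ℂ ⧸ RingHom.ker φ) •
              (1 : Module.End (integralClosure ℤ ℂ ⧸ RingHom.ker φ) W) = 0 := by
    intro p hp hpS A hA σ hσ
    have hpMℓ := (hSet p hp).mp hpS
    rw [hdfrob p hp hpMℓ A hA σ hσ]
    exact hfrob p hp hpMℓ A hA σ hσ
  obtain ⟨r, hr1, hr2⟩ := Fermat.Agent.H64.exists_residualGaloisRep_of_frobenius_relations
    hdense ι ρ hfin d hdfin (M * ℓ).primeFactors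
    (fun n => redVal φ' (ModularFormClass.qCoeff h n)) hFrob
  refine ⟨r, fun p hp hpMℓ => ⟨?_, ?_⟩⟩
  · intro A hA σ hσ
    obtain ⟨hpM, hpℓ⟩ := hsplit p hpMℓ
    exact hr1 σ (hunr p hp hpMℓ A hA σ hσ)
      (hdone σ ((hεM p hp hpM A hA).1 σ hσ) ((hεℓ p hp hpℓ A hA).1 σ hσ))
  · intro A hA σ hσ
    obtain ⟨hpM, hpℓ⟩ := hsplit p hpMℓ
    rw [hr2 p hp ((hSet p hp).mpr hpMℓ) A hA σ hσ, ha, hdfrob p hp hpMℓ A hA σ hσ, hd p hp hpM]

/-- **ES1-FINAL5 (row 584).** -/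
theorem gamma1Residual5_of_space (hS : EichlerShimuraSpace1Statement)
    (hC : CycloCharGenStatement) : Gamma1ResidualStatement5 :=
  gamma1Residual5_of_frobPow frobPowDense hS hC

end Fermat.Agent.H28
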