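import Mathlib
import Fermat.Agent.H28.ES1.Final5
import Fermat.Agent.H90.ES1.CycloCharGen

/-!
# P-ES1 : wiring of `Gamma1ResidualStatement5` (helper28)

* `gamma1Residual5_of_space1` : from `EichlerShimuraSpace1Statement` alone (the cyclotomic
  characters are helper90's landed `Fermat.Agent.H90.ES1.cycloCharGen`).
* `gamma1Residual5_of_parts` : from the six statements of the torsion package of `J₁(M)`.
-/

set_option autoImplicit false

namespace Fermat.Agent.H28

open Fermat.Agent.H29.ES1

/-- `Gamma1ResidualStatement5` from the Eichler–Shimura space statement alone. -/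
theorem gamma1Residual5_of_space1 (hS : EichlerShimuraSpace1Statement) :
    Gamma1ResidualStatement5 :=
  gamma1Residual5_of_space hS Fermat.Agent.H90.ES1.cycloCharGen

/-- `Gamma1ResidualStatement5` from the torsion package of `J₁(M)`. -/
theorem gamma1Residual5_of_parts (hfin : J1TorsFiniteStatement) (hsm : J1SmoothStatement)
    (hgal : J1GalHeckeStatement) (hU : J1UnramifiedStatement) (hES : J1EichlerShimuraStatement)
    (heig : J1EigenStatement) : Gamma1ResidualStatement5 :=
  gamma1Residual5_of_space1 (eichlerShimuraSpace1_of_parts hfin hsm hgal hU hES heig)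

end Fermat.Agent.H28
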