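import Mathlib

/-!
# P-ES1 / ES1-C-GLUE, abstract part (helper28), Mathlib only

* `exists_eigen_of_injective` : transport of a common eigenvector in `k ⊗_ℤ P` along an injective
  additive map `E : P → Q` of elementary abelian `p`-groups intertwining the operators.
* `finite_addHom_of_fg` : `Hom(Γ, A)` is finite for `Γ` finitely generated and `A` finite.
-/

set_option autoImplicit false

namespace Fermat.Agent.H28

open scoped TensorProduct

/-- An injective additive map between `ZMod p`-vector spaces has an additive retraction. -/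
theorem exists_retraction_of_injective (p : ℕ) [Fact p.Prime]
    {P Q : Type} [AddCommGroup P] [AddCommGroup Q] [Module (ZMod p) P] [Module (ZMod p) Q]
    (E : P →+ Q) (hE : Function.Injective E) : ∃ r : Q →+ P, ∀ x, r (E x) = x := by
  have hker : LinearMap.ker (AddMonoidHom.toZModLinearMap p E) = ⊥ :=
    LinearMap.ker_eq_bot.mpr hE
  obtain ⟨r, hr⟩ :=
    LinearMap.exists_leftInverse_of_injective (AddMonoidHom.toZModLinearMap p E) hker
  exact ⟨r.toAddMonoidHom, fun x => congrArg (fun f : P →ₗ[ZMod p] P => f x) hr⟩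

/-- Transport of an eigenvector along an injective additive map of elementary abelian
`p`-groups which intertwines two families of endomorphisms. -/
theorem exists_eigen_of_injective (p : ℕ) [Fact p.Prime] (k : Type) [Field k]
    {P Q : Type} [AddCommGroup P] [AddCommGroup Q]
    (hP : ∀ x : P, p • x = 0) (hQ : ∀ y : Q, p • y = 0)
    (E : P →+ Q) (hE : Function.Injective E) {ι : Type} (TP : ι → (P →+ P))
    (TQ : ι → Module.End ℤ Q) (hΦ : ∀ i x, E (TP i x) = TQ i (E x)) (c : ι → k)
    (v : k ⊗[ℤ] P) (hv : v ≠ 0)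
    (hev : ∀ i, (TP i).toIntLinearMap.baseChange k v = c i • v) :
    ∃ w : k ⊗[ℤ] Q, w ≠ 0 ∧ ∀ i, (TQ i).baseChange k w = c i • w := by
  obtain ⟨r, hrE⟩ := @exists_retraction_of_injective p _ P Q _ _
    (AddCommGroup.zmodModule hP) (AddCommGroup.zmodModule hQ) E hE
  refine ⟨E.toIntLinearMap.baseChange k v, ?_, fun i => ?_⟩
  · intro h0
    apply hv
    have h2 : r.toIntLinearMap ∘ₗ E.toIntLinearMap = LinearMap.id :=
      LinearMap.ext fun x => hrE x
    have h1 : (r.toIntLinearMap.baseChange k) (E.toIntLinearMap.baseChange k v) = v := by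
      rw [← LinearMap.comp_apply, ← LinearMap.baseChange_comp, h2, LinearMap.baseChange_id]
      rfl
    rw [← h1, h0, map_zero]
  · have h1 : (TQ i) ∘ₗ E.toIntLinearMap = E.toIntLinearMap ∘ₗ (TP i).toIntLinearMap :=
      LinearMap.ext fun x => (hΦ i x).symm
    rw [← LinearMap.comp_apply, ← LinearMap.baseChange_comp, h1, LinearMap.baseChange_comp,
      LinearMap.comp_apply, hev i, map_smul]

/-- Additive homomorphisms on a group are determined by their values on a generating set. -/
theorem addHom_ext_of_closure {Γ : Type*} [Group Γ] {A : Type*} [AddCommGroup A]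
    {S : Set Γ} (hS : Subgroup.closure S = ⊤) {f g : Additive Γ →+ A}
    (h : ∀ s ∈ S, f (Additive.ofMul s) = g (Additive.ofMul s)) : f = g := by
  refine AddMonoidHom.ext fun γ' => ?_
  obtain ⟨γ, rfl⟩ : ∃ γ : Γ, Additive.ofMul γ = γ' := ⟨Additive.toMul γ', rfl⟩
  have hmem : γ ∈ Subgroup.closure S := by rw [hS]; exact Subgroup.mem_top γ
  induction hmem using Subgroup.closure_induction with
  | mem x hx => exact h x hx
  | one => rw [ofMul_one, map_zero, map_zero]
  | mul x y _ _ hx hy => rw [ofMul_mul, map_add, map_add, hx, hy]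
  | inv x _ hx => rw [ofMul_inv, map_neg, map_neg, hx]

/-- `Hom(Γ, A)` is finite for `Γ` finitely generated and `A` finite. -/
theorem finite_addHom_of_fg {Γ : Type*} [Group Γ] (hΓ : Group.FG Γ) (A : Type*)
    [AddCommGroup A] [Finite A] : Finite (Additive Γ →+ A) := by
  obtain ⟨S, hS⟩ := (Group.fg_def).mp hΓ
  refine Finite.of_injective
    (fun (f : Additive Γ →+ A) (s : (S : Set Γ)) => f (Additive.ofMul (s : Γ))) ?_
  intro f g hfg
  exact addHom_ext_of_closure hS fun s hs => congrFun hfg ⟨s, hs⟩

end Fermat.Agent.H28
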