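import Mathlib
import Fermat.Agent.H21.Es1C.CohEigen
import Fermat.Agent.H32.TensorEigen
import Fermat.Agent.H28.ES1.TensorPush
import Fermat.Agent.H28.ES1.Space1

/-!
# P-ES1 / ES1-C-GLUE (row 885): `J1EigenStatement` from `CohEigen1Statement` and
`KummerBridge1Statement` (helper28)

`j1Eigen_of_parts : CohEigen1Statement → KummerBridge1Statement → J1EigenStatement`.

The eigen-class `w₀ ∈ Hom(G1 M, k)` gives (pure algebra, `Fermat.Agent.H32.tensorEigen`) a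
nonzero common eigenvector in `k ⊗_ℤ V`, `V = parEllHoms1 M ℓ`; the Kummer bridge
`E : V → J₁(M)(ℚ̄)[ℓ]` is injective and intertwines `cohU1 p` with `α_* β^*` and `cohD1 d` with
`diamTors d`, hence `cohT1 p = cohU1 p ∘ cohD1 p` with `TTors p = heckeTors1 p * diamTors p`;
an injective map of `𝔽_ℓ`-vector spaces stays injective after `k ⊗_ℤ -`.
-/

set_option autoImplicit false
set_option linter.style.haveILetI false

noncomputable section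

namespace Fermat.Agent.H28

open ModularCurve AlgebraicCurve Fermat.Agent.H29.ES1 Fermat.Agent.H21.Es1C
open scoped TensorProduct

/-! ## Operators on `V = parEllHoms1 M ℓ` -/

section ops

variable (M ℓ : ℕ)

theorem parEllHoms1_finite [NeZero M] [NeZero ℓ] : Finite ↥(parEllHoms1 M ℓ) := by
  haveI : Finite (Additive ↥(G1 M) →+ ZMod ℓ) := finite_addHom_of_fg (g1_fg M) (ZMod ℓ)
  exact Finite.of_injective (fun χ : ↥(parEllHoms1 M ℓ) => (χ : Additive ↥(G1 M) →+ ZMod ℓ))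
    Subtype.val_injective

theorem parEllHoms1_nsmul [NeZero ℓ] (χ : ↥(parEllHoms1 M ℓ)) : ℓ • χ = 0 := by
  refine Subtype.ext (AddMonoidHom.ext fun γ => ?_)
  show ℓ • (χ : Additive ↥(G1 M) →+ ZMod ℓ) γ = 0
  rw [nsmul_eq_mul, ZMod.natCast_self, zero_mul]

/-- The restriction to `V` of an operator on `Hom(G1 M, ℤ/ℓ)` which preserves `V`. -/
def restrictOp (f : (Additive ↥(G1 M) →+ ZMod ℓ) →+ (Additive ↥(G1 M) →+ ZMod ℓ))
    (hf : ∀ χ : Additive ↥(G1 M) →+ ZMod ℓ, (∀ γ ∈ parEllSet1 M, χ (Additive.ofMul γ) = 0) →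
      ∀ γ ∈ parEllSet1 M, f χ (Additive.ofMul γ) = 0) :
    ↥(parEllHoms1 M ℓ) →+ ↥(parEllHoms1 M ℓ) :=
  (f.comp (parEllHoms1 M ℓ).subtype).codRestrict (parEllHoms1 M ℓ) (fun χ => hf χ.1 χ.2)

@[simp] theorem coe_restrictOp
    (f : (Additive ↥(G1 M) →+ ZMod ℓ) →+ (Additive ↥(G1 M) →+ ZMod ℓ))
    (hf : ∀ χ : Additive ↥(G1 M) →+ ZMod ℓ, (∀ γ ∈ parEllSet1 M, χ (Additive.ofMul γ) = 0) →
      ∀ γ ∈ parEllSet1 M, f χ (Additive.ofMul γ) = 0) (χ : ↥(parEllHoms1 M ℓ)) :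
    ((restrictOp M ℓ f hf χ : ↥(parEllHoms1 M ℓ)) : Additive ↥(G1 M) →+ ZMod ℓ)
      = f (χ : Additive ↥(G1 M) →+ ZMod ℓ) := rfl

end ops

/-! ## Step 1 : the eigenvector in `k ⊗ V` -/

theorem exists_tensor_eigen_parEll (M : ℕ) [NeZero M] (ℓ : ℕ) [Fact ℓ.Prime] (k : Type) [Field k]
    [CharP k ℓ] (w₀ : Additive ↥(G1 M) →+ k) (hw₀ : w₀ ≠ 0)
    (hkill : ∀ γ ∈ parEllSet1 M, w₀ (Additive.ofMul γ) = 0)
    {ι : Type} (F : ι → ((Additive ↥(G1 M) →+ ZMod ℓ) →+ (Additive ↥(G1 M) →+ ZMod ℓ)))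
    (hF : ∀ (i : ι) (χ : Additive ↥(G1 M) →+ ZMod ℓ),
      (∀ γ ∈ parEllSet1 M, χ (Additive.ofMul γ) = 0) →
        ∀ γ ∈ parEllSet1 M, F i χ (Additive.ofMul γ) = 0)
    (Fk : ι → ((Additive ↥(G1 M) →+ k) →+ (Additive ↥(G1 M) →+ k)))
    (hnat : ∀ (i : ι) (lam : k →+ ZMod ℓ) (φ : Additive ↥(G1 M) →+ k),
      F i (lam.comp φ) = lam.comp (Fk i φ))
    (c : ι → k) (hc : ∀ i, Fk i w₀ = c i • w₀) :
    ∃ v : k ⊗[ℤ] ↥(parEllHoms1 M ℓ), v ≠ 0 ∧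
      ∀ i, (restrictOp M ℓ (F i) (hF i)).toIntLinearMap.baseChange k v = c i • v := by
  haveI : NeZero ℓ := ⟨(Fact.out : ℓ.Prime).ne_zero⟩
  haveI : Finite ↥(parEllHoms1 M ℓ) := parEllHoms1_finite M ℓ
  let ev : ↥(parEllHoms1 M ℓ) →+ (↥(G1 M) → ZMod ℓ) :=
    { toFun := fun χ γ => (χ : Additive ↥(G1 M) →+ ZMod ℓ) (Additive.ofMul γ)
      map_zero' := rfl
      map_add' := fun _ _ => rfl }
  have hev : Function.Injective ev := by
    intro χ χ' h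
    refine Subtype.ext (AddMonoidHom.ext fun γ => ?_)
    exact congrFun h (Additive.toMul γ)
  have hψ : (fun γ : ↥(G1 M) => w₀ (Additive.ofMul γ)) ≠ 0 := by
    intro h
    apply hw₀
    refine AddMonoidHom.ext fun γ => ?_
    exact congrFun h (Additive.toMul γ)
  have hr : ∀ lam : k →+ ZMod ℓ, ∃ m : ↥(parEllHoms1 M ℓ),
      ∀ x, ev m x = lam ((fun γ : ↥(G1 M) => w₀ (Additive.ofMul γ)) x) := by
    intro lam
    refine ⟨⟨lam.comp w₀, fun γ hγ => ?_⟩, fun x => rfl⟩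
    show lam (w₀ (Additive.ofMul γ)) = 0
    rw [hkill γ hγ, map_zero]
  refine Fermat.Agent.H32.tensorEigen ℓ k ↥(G1 M) ↥(parEllHoms1 M ℓ) ev hev
    (fun γ : ↥(G1 M) => w₀ (Additive.ofMul γ)) hψ hr ι
    (fun i => restrictOp M ℓ (F i) (hF i)) c ?_
  intro i lam m m' h1 h2
  have hm : (m : Additive ↥(G1 M) →+ ZMod ℓ) = lam.comp w₀ :=
    AddMonoidHom.ext fun γ => h1 (Additive.toMul γ)
  refine Subtype.ext ?_
  rw [coe_restrictOp, hm, hnat, hc]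
  refine AddMonoidHom.ext fun γ => ?_
  exact (h2 (Additive.toMul γ)).symm

/-! ## Step 2 : the operators on torsion -/

section tors

variable (M : ℕ) [NeZero M]

theorem coe_deltaTors_apply (n : ℕ) (d : (ZMod M)ˣ) (x : J1Tors M n) :
    ((deltaTors M n d x : J1Tors M n) : J1 M)
      = SemilinearAut.ofAlgAut (diamondAut (AlgebraicClosure ℚ) M d) • (x : J1 M) := rfl

theorem coe_diamTors_apply (n : ℕ) (d : (ZMod M)ˣ) (x : J1Tors M n) :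
    ((diamTors M n d x : J1Tors M n) : J1 M)
      = SemilinearAut.ofAlgAut (diamondAut (AlgebraicClosure ℚ) M d⁻¹) • (x : J1 M) := rfl

theorem coe_TTors_apply (n : ℕ) {p : ℕ} (hp : p.Prime) (hpM : ¬ p ∣ M) (x : J1Tors M n) :
    haveI : NeZero p := ⟨hp.ne_zero⟩
    ((TTors M n p x : J1Tors M n) : J1 M)
      = heckeOperatorGen (AlgebraicClosure ℚ) (F1 M) p
          (SemilinearAut.ofAlgAut (diamondAut (AlgebraicClosure ℚ) M
            (ZMod.unitOfCoprime p ((Nat.Prime.coprime_iff_not_dvd hp).mpr hpM))⁻¹) • (x : J1 M)) := by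
  haveI : NeZero p := ⟨hp.ne_zero⟩
  have h := congrArg (fun f : Module.End (ZMod n) (J1Tors M n) => ((f x : J1Tors M n) : J1 M))
    (TTors_eq_of_prime M n hp hpM)
  exact h

end tors

/-! ## The final glue -/

/-- **ES1-C-GLUE (row 885).** -/
theorem j1Eigen_of_parts (hC : CohEigen1Statement) (hB : KummerBridge1Statement) :
    J1EigenStatement := by
  intro M _ hM ψ h ℓ hℓ k _ _ φ abar dbar hmod
  haveI : Fact ℓ.Prime := ⟨hℓ⟩
  haveI : NeZero ℓ := ⟨hℓ.ne_zero⟩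
  obtain ⟨w₀, hw₀, hpar, hfin, hT, hD⟩ := hC M hM ψ h ℓ hℓ k φ abar dbar hmod
  choose e he hDe using hD
  obtain ⟨E, hEinj, hEtors, hEU, hED⟩ := hB M hM ℓ hℓ.pos
  have hkill : ∀ γ ∈ parEllSet1 M, w₀ (Additive.ofMul γ) = 0 := by
    rintro γ (hγ | hγ)
    · exact hpar γ hγ
    · exact hfin γ hγ
  have hnotM : ∀ p : {p : ℕ // p.Prime ∧ ¬ p ∣ M * ℓ}, ¬ (p : ℕ) ∣ M := fun p hdiv =>
    p.2.2 (Dvd.dvd.mul_right hdiv ℓ)
  -- the operators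
  let F : ({p : ℕ // p.Prime ∧ ¬ p ∣ M * ℓ} ⊕ (ZMod M)ˣ) →
      ((Additive ↥(G1 M) →+ ZMod ℓ) →+ (Additive ↥(G1 M) →+ ZMod ℓ)) :=
    Sum.elim (fun p => haveI : NeZero (p : ℕ) := ⟨p.2.1.ne_zero⟩; cohT1 M p (ZMod ℓ))
      (fun d => cohD1 M (d : ZMod M) (ZMod ℓ))
  let Fk : ({p : ℕ // p.Prime ∧ ¬ p ∣ M * ℓ} ⊕ (ZMod M)ˣ) →
      ((Additive ↥(G1 M) →+ k) →+ (Additive ↥(G1 M) →+ k)) :=
    Sum.elim (fun p => haveI : NeZero (p : ℕ) := ⟨p.2.1.ne_zero⟩; cohT1 M p k)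
      (fun d => cohD1 M (d : ZMod M) k)
  let c : ({p : ℕ // p.Prime ∧ ¬ p ∣ M * ℓ} ⊕ (ZMod M)ˣ) → k :=
    Sum.elim (fun p => abar p) e
  have hF : ∀ (i : {p : ℕ // p.Prime ∧ ¬ p ∣ M * ℓ} ⊕ (ZMod M)ˣ)
      (χ : Additive ↥(G1 M) →+ ZMod ℓ), (∀ γ ∈ parEllSet1 M, χ (Additive.ofMul γ) = 0) →
        ∀ γ ∈ parEllSet1 M, F i χ (Additive.ofMul γ) = 0 := by
    rintro (p | d) χ hχ
    · haveI : Fact (p : ℕ).Prime := ⟨p.2.1⟩
      exact cohT1_kills M p (hnotM p) χ hχ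
    · exact cohD1_kills M (d : ZMod M) χ hχ
  have hnat : ∀ (i : {p : ℕ // p.Prime ∧ ¬ p ∣ M * ℓ} ⊕ (ZMod M)ˣ) (lam : k →+ ZMod ℓ)
      (φ' : Additive ↥(G1 M) →+ k), F i (lam.comp φ') = lam.comp (Fk i φ') := by
    rintro (p | d) lam φ'
    · haveI : Fact (p : ℕ).Prime := ⟨p.2.1⟩
      exact cohT1_comp M p (hnotM p) lam φ'
    · rfl
  have hc : ∀ i, Fk i w₀ = c i • w₀ := by
    rintro (p | d)
    · exact hT ⟨p, p.2.1, hnotM p⟩
    · exact hDe d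
  obtain ⟨v, hv, hve⟩ := exists_tensor_eigen_parEll M ℓ k w₀ hw₀ hkill F hF Fk hnat c hc
  -- the bridge, with values in the torsion
  let E' : ↥(parEllHoms1 M ℓ) →+ J1Tors M ℓ :=
    E.codRestrict (Pic0.torsion (AlgebraicClosure ℚ) (F1Bar M) ℓ) (fun χ => by
      rw [Pic0.mem_torsion, natCast_zsmul]
      exact hEtors χ)
  have hE'coe : ∀ χ, ((E' χ : J1Tors M ℓ) : J1 M) = E χ := fun χ => rfl
  have hE'inj : Function.Injective E' := fun χ χ' hχ =>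
    hEinj (congrArg (fun x : J1Tors M ℓ => (x : J1 M)) hχ)
  have hQ : ∀ y : J1Tors M ℓ, ℓ • y = 0 := by
    intro y
    refine Subtype.ext ?_
    have := Pic0.mem_torsion.mp y.2
    rw [natCast_zsmul] at this
    exact this
  let TQ : ({p : ℕ // p.Prime ∧ ¬ p ∣ M * ℓ} ⊕ (ZMod M)ˣ) → Module.End ℤ (J1Tors M ℓ) :=
    Sum.elim (fun p => (TTors M ℓ p).restrictScalars ℤ)
      (fun d => (diamTors M ℓ d).restrictScalars ℤ)
  have hΦ : ∀ (i : {p : ℕ // p.Prime ∧ ¬ p ∣ M * ℓ} ⊕ (ZMod M)ˣ) (χ : ↥(parEllHoms1 M ℓ)),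
      E' (restrictOp M ℓ (F i) (hF i) χ) = TQ i (E' χ) := by
    rintro (p | d) χ
    · haveI : Fact (p : ℕ).Prime := ⟨p.2.1⟩
      haveI : NeZero (p : ℕ) := ⟨p.2.1.ne_zero⟩
      refine Subtype.ext ?_
      -- the intermediate class `⟨p⟩ χ`
      let χ₁ : ↥(parEllHoms1 M ℓ) :=
        restrictOp M ℓ (cohD1 M (p : ZMod M) (ZMod ℓ)) (cohD1_kills M (p : ZMod M)) χ
      have h1 : ((restrictOp M ℓ (F (Sum.inl p)) (hF (Sum.inl p)) χ : ↥(parEllHoms1 M ℓ)) :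
          Additive ↥(G1 M) →+ ZMod ℓ) = cohU1 M p (ZMod ℓ) (χ₁ : Additive ↥(G1 M) →+ ZMod ℓ) :=
        cohT1_eq_cohU1_cohD1 M p (hnotM p) (χ : Additive ↥(G1 M) →+ ZMod ℓ)
      have h2 : E (restrictOp M ℓ (F (Sum.inl p)) (hF (Sum.inl p)) χ)
          = heckeOperatorGen (AlgebraicClosure ℚ) (F1 M) p (E χ₁) :=
        hEU p p.2.1 (hnotM p) χ₁ _ h1
      have hu : ((ZMod.unitOfCoprime (p : ℕ)
          ((Nat.Prime.coprime_iff_not_dvd p.2.1).mpr (hnotM p)) : (ZMod M)ˣ) : ZMod M)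
          = ((p : ℕ) : ZMod M) := ZMod.coe_unitOfCoprime _ _
      have h3 : E χ₁ = SemilinearAut.ofAlgAut (diamondAut (AlgebraicClosure ℚ) M
          (ZMod.unitOfCoprime (p : ℕ)
            ((Nat.Prime.coprime_iff_not_dvd p.2.1).mpr (hnotM p)))⁻¹) • E χ := by
        refine hED _ χ χ₁ ?_
        rw [hu]
        rfl
      have h4 := coe_TTors_apply M ℓ p.2.1 (hnotM p) (E' χ)
      show E (restrictOp M ℓ (F (Sum.inl p)) (hF (Sum.inl p)) χ)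
        = ((TTors M ℓ p (E' χ) : J1Tors M ℓ) : J1 M)
      rw [h2, h3]
      exact h4.symm
    · refine Subtype.ext ?_
      show E (restrictOp M ℓ (cohD1 M (d : ZMod M) (ZMod ℓ)) (hF (Sum.inr d)) χ)
        = ((diamTors M ℓ d (E' χ) : J1Tors M ℓ) : J1 M)
      rw [coe_diamTors_apply]
      exact hED d χ _ rfl
  obtain ⟨w, hw, hwe⟩ := exists_eigen_of_injective ℓ k (parEllHoms1_nsmul M ℓ) hQ E' hE'inj
    (fun i => restrictOp M ℓ (F i) (hF i)) TQ hΦ c v hv hve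
  refine ⟨w, hw, fun p hp hpMℓ => hwe (Sum.inl ⟨p, hp, hpMℓ⟩), fun d => ⟨e d, he d, hwe (Sum.inr d)⟩⟩

end Fermat.Agent.H28

end
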